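-- Statement S45, wiring: the conclusion of S45 follows, for a Frey package `P`, from
--   (S06-shape)  a conductor level `N` at which the Frey representation is modular,
--   (S43-shape)  removal of an odd prime `q ≠ p` at which the representation is unramified,
--   (S05-shape)  unramifiedness at every prime `q ≠ 2, p`,
--   (S44-shape)  removal of `p`,
-- and the vanishing of weight-2 cusp forms of level one (S08, already proved).
-- Everything here is stated with the four inputs as explicit hypotheses, so the file has no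
-- dependency on unproved statements.
import Fermat.Statements.S45
import Fermat.Prelude.Def_FreyPackage_IsConductorLevel
import Fermat.Agent.S08

set_option autoImplicit false
open WeierstrassCurve WeierstrassCurve.Affine WeierstrassCurve.Affine.Point
open CuspForm ModularFormClass UpperHalfPlane
open FreyPackage

namespace Fermat.Agent.S45Wiring

/-- The Frey representation of `P` is irreducible (the hypothesis `hirr` of S45). -/
def Irr (P : FreyPackage) : Prop :=
  GaloisRepIsIrreducible (K := AlgebraicClosure ℚ) ℚ P.freyCurve P.p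

/-- Shape of statement S43 for a fixed Frey package. -/
def LowerOddAt (P : FreyPackage) : Prop :=
  ∀ {N q : ℕ}, P.IsConductorLevel N → q.Prime → q ≠ 2 → q ≠ P.p → q ∣ N → Irr P →
    P.ModularRepOfLevel N → P.GaloisRepUnramifiedAt q →
    ∃ M : ℕ, M ∣ N ∧ ¬ q ∣ M ∧ P.ModularRepOfLevel M

/-- Shape of statement S44 for a fixed Frey package. -/
def LowerPAt (P : FreyPackage) : Prop :=
  ∀ {N : ℕ}, P.IsConductorLevel N → P.p ∣ N → Irr P → P.ModularRepOfLevel N →
    ∃ M : ℕ, M ∣ N ∧ ¬ P.p ∣ M ∧ P.ModularRepOfLevel M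

/-- Shape of statement S05 for a fixed Frey package. -/
def UnramAt (P : FreyPackage) : Prop :=
  ∀ {q : ℕ}, q.Prime → q ≠ 2 → q ≠ P.p → P.GaloisRepUnramifiedAt q

/-- A squarefree natural number without odd prime factors divides `2`. -/
theorem dvd_two_of_squarefree_of_no_odd_prime {N : ℕ} (hsq : Squarefree N)
    (h : ∀ q : ℕ, q.Prime → q ∣ N → q = 2) : N ∣ 2 := by
  have hN0 : N ≠ 0 := hsq.ne_zero
  rw [← Nat.factorization_prime_le_iff_dvd hN0 (by norm_num)]
  intro q hq
  by_cases hqN : q ∣ N
  · have hq2 : q = 2 := h q hq hqN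
    subst hq2
    have h1 : N.factorization 2 ≤ 1 := by
      have := (Nat.squarefree_iff_factorization_le_one hN0).mp hsq 2
      exact this
    have h2 : (2 : ℕ).factorization 2 = 1 := by
      simpa using Nat.Prime.factorization_self Nat.prime_two
    omega
  · have : N.factorization q = 0 := Nat.factorization_eq_zero_of_not_dvd hqN
    omega

/-- Strip all odd primes (and `p`) from a conductor level. -/
theorem exists_level_dvd_two (P : FreyPackage) (hirr : Irr P)
    (h43 : LowerOddAt P) (h44 : LowerPAt P) (h05 : UnramAt P) :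
    ∀ N : ℕ, P.IsConductorLevel N → P.ModularRepOfLevel N →
      ∃ M : ℕ, M ∣ 2 ∧ P.ModularRepOfLevel M := by
  intro N
  induction N using Nat.strong_induction_on with
  | _ N ih =>
    intro hcond hmod
    by_cases hodd : ∀ q : ℕ, q.Prime → q ∣ N → q = 2
    · exact ⟨N, dvd_two_of_squarefree_of_no_odd_prime hcond.squarefree hodd, hmod⟩
    · push Not at hodd
      obtain ⟨q, hq, hqN, hq2⟩ := hodd
      have key : ∃ M : ℕ, M ∣ N ∧ ¬ q ∣ M ∧ P.ModularRepOfLevel M := by
        by_cases hqp : q = P.p
        · subst hqp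
          exact h44 hcond hqN hirr hmod
        · exact h43 hcond hq hq2 hqp hqN hirr hmod (h05 hq hq2 hqp)
      obtain ⟨M, hMN, hqM, hM⟩ := key
      have hMpos : 0 < M := Nat.pos_of_dvd_of_pos hMN hcond.pos
      have hMne : M ≠ N := by
        rintro rfl
        exact hqM hqN
      have hMlt : M < N := lt_of_le_of_ne (Nat.le_of_dvd hcond.pos hMN) hMne
      exact ih M hMlt (hcond.of_dvd hMN hMpos) hM

/-- A modular representation of level dividing `2` yields a nonzero weight-2 cusp form of
level `Γ₀(2)`. -/
theorem exists_cuspForm_two_of_modularRep (P : FreyPackage) {M : ℕ} (hM2 : M ∣ 2)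
    (hM : P.ModularRepOfLevel M) :
    ∃ f : CuspForm (CongruenceSubgroup.Gamma0 2) 2, f ≠ 0 := by
  have hM12 : M = 1 ∨ M = 2 := (Nat.dvd_prime Nat.prime_two).mp hM2
  rcases hM12 with rfl | rfl
  · obtain ⟨f, -, -, hf, -⟩ := hM
    exact absurd (Fermat.Agent.S08.result f) hf.ne_zero
  · obtain ⟨f, -, -, hf, -⟩ := hM
    exact ⟨f, hf.ne_zero⟩

/-- S45 from the four inputs (for a fixed Frey package). -/
theorem s45_of_inputs (P : FreyPackage) (hirr : Irr P)
    (h06 : ∃ N : ℕ, P.IsConductorLevel N ∧ P.ModularRepOfLevel N)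
    (h43 : LowerOddAt P) (h44 : LowerPAt P) (h05 : UnramAt P) :
    ∃ f : CuspForm (CongruenceSubgroup.Gamma0 2) 2, f ≠ 0 := by
  obtain ⟨N, hcond, hmod⟩ := h06
  obtain ⟨M, hM2, hM⟩ := exists_level_dvd_two P hirr h43 h44 h05 N hcond hmod
  exact exists_cuspForm_two_of_modularRep P hM2 hM

end Fermat.Agent.S45Wiring
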